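/-
S55 / 47i-HREC-TRACE (helper84), file 1: reciprocity at a level from reciprocity at the base,
formally, via the trace map and the orbit form of Shapiro's lemma.

Setting: `𝒰 : LevelStr G`, `π : G →* Γ` (`Γ` finite) whose kernel contains a level, `A : Rep k G`
coinduced (`co : CoindCoord π A`), `M : Rep k G` and an equivariant `tr : A →ₗ[k] M` (the trace).
One local group `r : H →* G` (level-continuous), an orbit section `τ : OrbSect (π.comp r)`, and a
functional `lam` on `H²(𝒱; res M)`.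

* `Lam ρ` (`ρ : τ.R`) : the functional on `H²((π ∘ r).ker; k)` obtained from `lam ∘ H²(tr)` through
  the `ρ`-component of the orbit Shapiro isomorphism of `res A`;
* `lam_H2map_eq_sum` : `lam (H²(tr) y) = ∑ ρ, Lam ρ (ρ-coordinate of y)`;
* `lam_res₂_H2map_eq_sum` : for a global class `x : H²(𝒰; A)`,
  `lam (res (H²(tr) x)) = ∑ ρ, Lam ρ (res along conjKer (t ρ) of the Shapiro image of x)`
  whenever `π (t ρ) = ρ`  (helper32's `mackey₂`);
* `orbRep ρ` : the sub-representation of `res A` of vectors with coordinates supported on the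
  orbit of `ρ`; `Lam_ne_zero` : `Lam ρ ≠ 0` as soon as `lam ≠ 0` and `H²(𝒱; orbRep ρ) → H²(𝒱; res M)`
  is surjective (right exactness of `H²` of the local group).
-/
import Fermat.Agent.S55.ShaTransport84.Bridge32
import Fermat.Agent.S55.ShapiroLevel32.OrbitEquiv
import Fermat.Agent.S55.Profin15.LESNat

set_option autoImplicit false

universe u

open CategoryTheory groupCohomology

namespace Fermat.Agent.S55.HrecTrace84

open Fermat.Agent.S55.Profin15 Fermat.Agent.S55.ShapiroLevel32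

section Local

variable {k G Γ H : Type u} [CommRing k] [Group G] [Group Γ] [Finite Γ] [Group H]
variable {𝒰 : LevelStr G} {𝒱 : LevelStr H} {r : H →* G} (hr : LevelStr.IsContinuous 𝒱 𝒰 r)
  {π : G →* Γ} (hker : ∃ V ∈ 𝒰.levels, V ≤ π.ker)
  {A M : Rep k G} (co : CoindCoord π A) (tr : A →ₗ[k] M) (htr : LevelStr.IsEquivariant tr)
  (τ : OrbSect (π.comp r)) (lam : 𝒱.H2 (Rep.res r M) →ₗ[k] k)

/-- the orbit Shapiro isomorphism of the restricted module -/
noncomputable abbrev orbE :
    𝒱.H2 (Rep.res r A) ≃ₗ[k]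
      (τ.R → (kerLevels 𝒱 (ShaTransport84.hker_comp hr hker)).H2 (triv k (π.comp r).ker)) :=
  orbitShapiroH2 𝒱 (ShaTransport84.hker_comp hr hker) (co.res r) τ

/-- the local functional at the orbit `ρ` -/
noncomputable def Lam [DecidableEq τ.R] (ρ : τ.R) :
    (kerLevels 𝒱 (ShaTransport84.hker_comp hr hker)).H2 (triv k (π.comp r).ker) →ₗ[k] k :=
  lam ∘ₗ 𝒱.H2map (LevelStr.resLin r tr) (htr.res r) ∘ₗ
    ((orbE hr hker co τ).symm : _ →ₗ[k] 𝒱.H2 (Rep.res r A)) ∘ₗ
      LinearMap.single k (fun _ : τ.R =>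
        (kerLevels 𝒱 (ShaTransport84.hker_comp hr hker)).H2 (triv k (π.comp r).ker)) ρ

lemma Lam_apply [DecidableEq τ.R] (ρ : τ.R)
    (z : (kerLevels 𝒱 (ShaTransport84.hker_comp hr hker)).H2 (triv k (π.comp r).ker)) :
    Lam hr hker co tr htr τ lam ρ z =
      lam (𝒱.H2map (LevelStr.resLin r tr) (htr.res r)
        ((orbE hr hker co τ).symm (Pi.single ρ z))) := rfl

/-- decomposition of `lam ∘ H²(tr)` along the orbits -/
theorem lam_H2map_eq_sum [Fintype τ.R] [DecidableEq τ.R] (y : 𝒱.H2 (Rep.res r A)) :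
    lam (𝒱.H2map (LevelStr.resLin r tr) (htr.res r) y) =
      ∑ ρ : τ.R, Lam hr hker co tr htr τ lam ρ
        (shH2 𝒱 (ShaTransport84.hker_comp hr hker) ((co.res r).shift (ρ : Γ)) y) := by
  have h1 : y = (orbE hr hker co τ).symm
      (∑ ρ : τ.R, Pi.single ρ (orbE hr hker co τ y ρ)) := by
    rw [Finset.univ_sum_single, LinearEquiv.symm_apply_apply]
  conv_lhs => rw [h1]
  rw [map_sum, map_sum, map_sum]
  rfl

/-- **Mackey + trace**: the local functional of the trace of a global class is the sum of the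
`Lam ρ` of the conjugated restrictions of its Shapiro image. -/
theorem lam_res₂_H2map_eq_sum [Fintype τ.R] [DecidableEq τ.R] (t : τ.R → G)
    (ht : ∀ ρ : τ.R, π (t ρ) = (ρ : Γ)) (x : 𝒰.H2 A) :
    lam (hr.res₂ M (𝒰.H2map tr htr x)) =
      ∑ ρ : τ.R, Lam hr hker co tr htr τ lam ρ
        ((ShaTransport84.conjKer_isContinuous hr hker (t ρ)).res₂ (triv k π.ker)
          (shH2 𝒰 hker co x)) := by
  rw [hr.res₂_H2map htr x, lam_H2map_eq_sum hr hker co tr htr τ lam]
  refine Finset.sum_congr rfl fun ρ _ => ?_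
  congr 1
  rw [← ht ρ]
  exact mackey₂ co hr hker (ShaTransport84.hker_comp hr hker) (t ρ) x

/-! ### The orbit summands and non-vanishing -/

/-- vectors of `A` whose coordinates are supported on the orbit of `ρ` -/
def orbSub (ρ : τ.R) : Submodule k A where
  carrier := {a | ∀ δ : Γ, τ.rep δ ≠ (ρ : Γ) → co.c a δ = 0}
  add_mem' := by
    intro a b ha hb δ hδ
    rw [map_add, Pi.add_apply, ha δ hδ, hb δ hδ, add_zero]
  zero_mem' := by
    intro δ _
    rw [map_zero]
    rfl
  smul_mem' := by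
    intro c a ha δ hδ
    rw [map_smul, Pi.smul_apply, ha δ hδ, smul_zero]

omit [Finite Γ] in
lemma mem_orbSub_iff (ρ : τ.R) (a : A) :
    a ∈ orbSub co τ ρ ↔ ∀ δ : Γ, τ.rep δ ≠ (ρ : Γ) → co.c a δ = 0 := Iff.rfl

omit [Finite Γ] in
lemma ρ_mem_orbSub (ρ : τ.R) (h : H) {a : A} (ha : a ∈ orbSub co τ ρ) :
    A.ρ (r h) a ∈ orbSub co τ ρ := by
  intro δ hδ
  rw [co.c_ρ]
  apply ha
  have : τ.rep (δ * (π.comp r) h) = τ.rep δ := τ.rep_mul δ h
  rw [MonoidHom.comp_apply] at this
  rw [this]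
  exact hδ

/-- the representation of `H` on the orbit summand -/
def orbRho (ρ : τ.R) : Representation k H ↥(orbSub co τ ρ) where
  toFun h := (A.ρ (r h)).restrict fun _ ha => ρ_mem_orbSub co τ ρ h ha
  map_one' := by
    ext a
    simp
  map_mul' h h' := by
    ext a
    simp

/-- the orbit summand as a representation of the local group -/
def orbRep (ρ : τ.R) : Rep k H := Rep.of (orbRho co τ ρ)

/-- the inclusion of the orbit summand -/
def orbIncl (ρ : τ.R) : (orbRep co τ ρ) →ₗ[k] (Rep.res r A) := (orbSub co τ ρ).subtype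

omit [Finite Γ] in
lemma isEquivariant_orbIncl (ρ : τ.R) : LevelStr.IsEquivariant (orbIncl co τ ρ) :=
  fun _ _ => rfl

/-- the trace restricted to the orbit summand -/
def orbTr (ρ : τ.R) : (orbRep co τ ρ) →ₗ[k] (Rep.res r M) :=
  (LevelStr.resLin r tr) ∘ₗ (orbIncl co τ ρ)

omit [Finite Γ] in
include htr in
lemma isEquivariant_orbTr (ρ : τ.R) : LevelStr.IsEquivariant (orbTr co tr τ ρ) :=
  (isEquivariant_orbIncl co τ ρ).comp (htr.res r)

omit [Finite Γ] in
/-- classes coming from the orbit summand of `ρ` have vanishing coordinates at the other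
representatives -/
lemma shH2_shift_H2map_orbIncl (ρ ρ' : τ.R) (hne : ρ' ≠ ρ) (u : 𝒱.H2 (orbRep co τ ρ)) :
    shH2 𝒱 (ShaTransport84.hker_comp hr hker) ((co.res r).shift (ρ' : Γ))
      (𝒱.H2map (orbIncl co τ ρ) (isEquivariant_orbIncl co τ ρ) u) = 0 := by
  obtain ⟨f, rfl⟩ := Submodule.mkQ_surjective _ u
  show (kerLevels 𝒱 (ShaTransport84.hker_comp hr hker)).H2π _
    (shZ₂ 𝒱 (ShaTransport84.hker_comp hr hker) ((co.res r).shift (ρ' : Γ))
      (𝒱.Z₂map (orbIncl co τ ρ) (isEquivariant_orbIncl co τ ρ) f)) = 0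
  have h0 : shZ₂ 𝒱 (ShaTransport84.hker_comp hr hker) ((co.res r).shift (ρ' : Γ))
      (𝒱.Z₂map (orbIncl co τ ρ) (isEquivariant_orbIncl co τ ρ) f) = 0 := by
    apply Subtype.ext
    rw [coe_shZ₂]
    funext ⟨a, b⟩
    rw [CoindCoord.shift_sh₂_apply]
    have hmem := ((f : H × H → orbRep co τ ρ) ((a : H), (b : H))).2
    have h1 : τ.rep (ρ' : Γ) ≠ (ρ : Γ) := by
      rw [ρ'.2]
      exact fun h => hne (Subtype.ext h)
    exact hmem (ρ' : Γ) h1
  rw [h0, map_zero]

/-- **Non-vanishing**: if `lam ≠ 0` and `H²` of the local group is right exact on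
`orbRep ρ → res M`, then `Lam ρ ≠ 0`. -/
theorem Lam_ne_zero [Fintype τ.R] [DecidableEq τ.R] (ρ : τ.R) (hlam : lam ≠ 0)
    (hsurj : Function.Surjective
      (𝒱.H2map (orbTr co tr τ ρ) (isEquivariant_orbTr co tr htr τ ρ))) :
    Lam hr hker co tr htr τ lam ρ ≠ 0 := by
  intro h0
  apply hlam
  refine LinearMap.ext fun m => ?_
  obtain ⟨u, rfl⟩ := hsurj m
  have hcomp : 𝒱.H2map (orbTr co tr τ ρ) (isEquivariant_orbTr co tr htr τ ρ) u =
      𝒱.H2map (LevelStr.resLin r tr) (htr.res r)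
        (𝒱.H2map (orbIncl co τ ρ) (isEquivariant_orbIncl co τ ρ) u) :=
    𝒱.H2map_comp (isEquivariant_orbIncl co τ ρ) (htr.res r) u
  rw [hcomp, lam_H2map_eq_sum hr hker co tr htr τ lam, LinearMap.zero_apply]
  apply Finset.sum_eq_zero
  intro ρ' _
  by_cases hne : ρ' = ρ
  · subst hne
    rw [h0, LinearMap.zero_apply]
  · rw [shH2_shift_H2map_orbIncl hr hker co τ ρ ρ' hne u, map_zero]

end Local

/-! ### Orbit sections from a family of conjugators -/

section Reindex

variable {G Γ H : Type u} [Group G] [Group Γ] [Group H]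
variable {π : G →* Γ} {r : H →* G} {J : Type*} (t : J → G)

/-- the conjugators `t j` represent the orbits of `Γ` under `π (r H)` exactly once -/
def IsOrbitReps (π : G →* Γ) (r : H →* G) (t : J → G) : Prop :=
  Function.Bijective (fun j : J => (QuotientGroup.mk (π (t j)) : Γ ⧸ (π.comp r).range))

variable {t} (hbij : IsOrbitReps π r t)

/-- the index of the orbit of `δ` -/
noncomputable def jOf (δ : Γ) : J :=
  (Equiv.ofBijective _ hbij).symm (QuotientGroup.mk δ : Γ ⧸ (π.comp r).range)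

lemma mk_π_t_jOf (δ : Γ) :
    (QuotientGroup.mk (π (t (jOf hbij δ))) : Γ ⧸ (π.comp r).range) = QuotientGroup.mk δ :=
  (Equiv.ofBijective _ hbij).apply_symm_apply _

lemma jOf_π_t (j : J) : jOf hbij (π (t j)) = j :=
  (Equiv.ofBijective _ hbij).symm_apply_apply j

lemma jOf_mul (δ : Γ) (h : H) : jOf hbij (δ * (π.comp r) h) = jOf hbij δ := by
  unfold jOf
  congr 1
  rw [QuotientGroup.eq, mul_inv_rev, inv_mul_cancel_right]
  exact (π.comp r).range.inv_mem ⟨h, rfl⟩

lemma exists_s (δ : Γ) : ∃ h : H, π (t (jOf hbij δ)) * (π.comp r) h = δ := by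
  obtain ⟨h, hh⟩ := QuotientGroup.eq.1 (mk_π_t_jOf hbij δ)
  refine ⟨h, ?_⟩
  have e : (π.comp r) h = (π (t (jOf hbij δ)))⁻¹ * δ := hh
  rw [e, mul_inv_cancel_left]

open Classical in
/-- the orbit section attached to a family of conjugators representing every orbit once -/
noncomputable def orbSectOf : OrbSect (π.comp r) where
  rep δ := π (t (jOf hbij δ))
  s δ := if π (t (jOf hbij δ)) = δ then 1 else (exists_s hbij δ).choose
  rep_mul δ g := by rw [jOf_mul]
  rep_s δ := by
    by_cases h : π (t (jOf hbij δ)) = δ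
    · simp [h]
    · simp only [h, if_false]
      exact (exists_s hbij δ).choose_spec
  s_rep δ := by simp [jOf_π_t]

@[simp] lemma orbSectOf_rep (δ : Γ) : (orbSectOf hbij).rep δ = π (t (jOf hbij δ)) := rfl

/-- the conjugators are in bijection with the representatives of the orbit section -/
noncomputable def eJ : J ≃ (orbSectOf hbij).R where
  toFun j := ⟨π (t j), by rw [orbSectOf_rep, jOf_π_t]⟩
  invFun ρ := jOf hbij (ρ : Γ)
  left_inv j := jOf_π_t hbij j
  right_inv ρ := Subtype.ext ρ.2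

@[simp] lemma coe_eJ (j : J) : ((eJ hbij j : (orbSectOf hbij).R) : Γ) = π (t j) := rfl

end Reindex

/-! ### One local group, conjugators indexed by `J` -/

section LocalJ

variable {k G Γ H : Type u} [CommRing k] [Group G] [Group Γ] [Finite Γ] [Group H]
variable {𝒰 : LevelStr G} {𝒱 : LevelStr H} {r : H →* G} (hr : LevelStr.IsContinuous 𝒱 𝒰 r)
  {π : G →* Γ} (hker : ∃ V ∈ 𝒰.levels, V ≤ π.ker)
  {A M : Rep k G} (co : CoindCoord π A) (tr : A →ₗ[k] M) (htr : LevelStr.IsEquivariant tr)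
  {J : Type*} {t : J → G} (hbij : IsOrbitReps π r t)
  (lam : 𝒱.H2 (Rep.res r M) →ₗ[k] k)

/-- the local functional at the conjugator `t j` -/
noncomputable def LamJ (j : J) :
    (kerLevels 𝒱 (ShaTransport84.hker_comp hr hker)).H2 (triv k (π.comp r).ker) →ₗ[k] k :=
  letI := Classical.decEq (orbSectOf hbij).R
  Lam hr hker co tr htr (orbSectOf hbij) lam (eJ hbij j)

/-- **Mackey + trace**, conjugators indexed by `J`. -/
theorem lam_res₂_H2map_eq_sumJ [Fintype J] (x : 𝒰.H2 A) :
    lam (hr.res₂ M (𝒰.H2map tr htr x)) =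
      ∑ j : J, LamJ hr hker co tr htr hbij lam j
        ((ShaTransport84.conjKer_isContinuous hr hker (t j)).res₂ (triv k π.ker)
          (shH2 𝒰 hker co x)) := by
  letI : DecidableEq (orbSectOf hbij).R := Classical.decEq _
  letI : Fintype (orbSectOf hbij).R := Fintype.ofEquiv J (eJ hbij)
  rw [hr.res₂_H2map htr x, lam_H2map_eq_sum hr hker co tr htr (orbSectOf hbij) lam]
  refine (Fintype.sum_equiv (eJ hbij) _ _ fun j => ?_).symm
  show Lam hr hker co tr htr (orbSectOf hbij) lam (eJ hbij j) _ =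
    Lam hr hker co tr htr (orbSectOf hbij) lam (eJ hbij j) _
  congr 1
  exact (mackey₂ co hr hker (ShaTransport84.hker_comp hr hker) (t j) x).symm

/-- **Non-vanishing**, conjugators indexed by `J`. -/
theorem LamJ_ne_zero [Finite J] (j : J) (hlam : lam ≠ 0)
    (hsurj : Function.Surjective
      (𝒱.H2map (orbTr co tr (orbSectOf hbij) (eJ hbij j))
        (isEquivariant_orbTr co tr htr (orbSectOf hbij) (eJ hbij j)))) :
    LamJ hr hker co tr htr hbij lam j ≠ 0 := by
  letI : DecidableEq (orbSectOf hbij).R := Classical.decEq _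
  letI : Fintype J := Fintype.ofFinite J
  letI : Fintype (orbSectOf hbij).R := Fintype.ofEquiv J (eJ hbij)
  show Lam hr hker co tr htr (orbSectOf hbij) lam (eJ hbij j) ≠ 0
  exact Lam_ne_zero hr hker co tr htr (orbSectOf hbij) lam (eJ hbij j) hlam hsurj

end LocalJ

/-! ### A family of local groups: `hrec` at the level `π.ker` -/

section Family

variable {k G Γ : Type u} [CommRing k] [Group G] [Group Γ] [Finite Γ]
variable {𝒰 : LevelStr G} {π : G →* Γ} (hker : ∃ V ∈ 𝒰.levels, V ≤ π.ker)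
variable {I : Type*} {Hl : I → Type u} [∀ v, Group (Hl v)] {𝒱 : ∀ v, LevelStr (Hl v)}
  {r : ∀ v, Hl v →* G} (hr : ∀ v, LevelStr.IsContinuous (𝒱 v) 𝒰 (r v))
  {A M : Rep k G} (co : CoindCoord π A) (tr : A →ₗ[k] M) (htr : LevelStr.IsEquivariant tr)
  (σ : Sect π) {J : I → Type*} {t : ∀ v, J v → G} (hbij : ∀ v, IsOrbitReps π (r v) (t v))
  (lam : ∀ v, (𝒱 v).H2 (Rep.res (r v) M) →ₗ[k] k)

omit [Finite Γ] in
include hbij in
/-- orbit representatives form a covering family -/
lemma covers_of_isOrbitReps (v : I) : ShaTransport84.Covers π r t v := by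
  intro δ
  obtain ⟨h, hh⟩ := exists_s (hbij v) δ
  exact ⟨jOf (hbij v) δ, h, hh⟩

/-- the family of local functionals, indexed by `w = ⟨v, j⟩`, in the shape consumed by
`CountWire96.finrank_sha2_le_finrank_sha1` / `CountWire23.LevelInputs` (for the conjugate family
of `ShaTransport84`) -/
noncomputable def LamW (w : Σ v, J v) :
    (ShaTransport84.conjLevels (J := J) hr hker w).H2
      (Rep.res (ShaTransport84.conjMap π r t w) (triv k π.ker)) →ₗ[k] k :=
  LamJ (hr w.1) hker co tr htr (hbij w.1) (lam w.1) w.2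

include σ in
/-- **Reciprocity at the level `π.ker`** from reciprocity at the base: if the `lam v` kill the
localisations of `H²(𝒰; M)`, then the `LamW w` kill the (conjugated) localisations of
`H²(π.ker; k)`. -/
theorem hrec_of_base [Fintype I] [∀ v, Fintype (J v)]
    (hbase : ∀ x : 𝒰.H2 M, ∑ v, lam v ((hr v).res₂ M x) = 0)
    (z : (kerLevels 𝒰 hker).H2 (triv k π.ker)) :
    ∑ w : Σ v, J v, LamW hker hr co tr htr hbij lam w
      ((ShaTransport84.conjMap_isContinuous hr hker t w).res₂ (triv k π.ker) z) = 0 := by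
  obtain ⟨x, rfl⟩ := (shapiroH2 𝒰 hker co σ).surjective z
  have h := hbase (𝒰.H2map tr htr x)
  rw [Fintype.sum_sigma]
  rw [← h]
  refine Finset.sum_congr rfl fun v _ => ?_
  rw [lam_res₂_H2map_eq_sumJ (hr v) hker co tr htr (hbij v) (lam v) x]
  rfl

/-- non-vanishing of the family functionals -/
theorem LamW_ne_zero [∀ v, Finite (J v)] (w : Σ v, J v) (hlam : lam w.1 ≠ 0)
    (hsurj : Function.Surjective ((𝒱 w.1).H2map
      (orbTr co tr (orbSectOf (hbij w.1)) (eJ (hbij w.1) w.2))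
      (isEquivariant_orbTr co tr htr (orbSectOf (hbij w.1)) (eJ (hbij w.1) w.2)))) :
    LamW hker hr co tr htr hbij lam w ≠ 0 :=
  LamJ_ne_zero (hr w.1) hker co tr htr (hbij w.1) (lam w.1) w.2 hlam hsurj

end Family

end Fermat.Agent.S55.HrecTrace84
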