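/-
S55 / 47i-HREC-TRACE (helper84), file 2: the trace `k[G/N] → k(χ)` and its restriction to the
orbit summands.

`N ⊴ G` of finite index, `χ : G →* kˣ` trivial on `N` (through `χ̄ : G ⧸ N →* kˣ`).

* `trPerm χ̄ : k[G/N] →ₗ[k] k`, `[gN] ↦ χ̄ (gN)`; `isEquivariant_trPerm` : it is `G`-equivariant
  to the twist `k(χ)` of the trivial module;
* `CoindCoord.ρ_eq_one_of_ker` : a coinduced module is acted on trivially by `π.ker`;
* `orbTr_trPerm_surjective` (`k` a field) : the trace restricted to the orbit summand of `ρ`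
  (`HrecTrace84.orbRep`) is surjective.
-/
import Fermat.Agent.S55.HrecTrace84.Generic
import Fermat.Agent.S55.ShaTransport84.Global

set_option autoImplicit false

universe u

open CategoryTheory groupCohomology

namespace Fermat.Agent.S55.HrecTrace84

open Fermat.Agent.S55.Profin15 Fermat.Agent.S55.ShapiroLevel32

section Ker

variable {k G Γ : Type u} [CommRing k] [Group G] [Group Γ] {π : G →* Γ} {A : Rep k G}

/-- the kernel of `π` acts trivially on a module coinduced through `π` -/
lemma ρ_eq_one_of_ker (co : CoindCoord π A) {g : G} (hg : π g = 1) : A.ρ g = 1 := by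
  apply LinearMap.ext
  intro a
  apply co.ext_c
  intro δ
  rw [co.c_ρ, hg, mul_one]
  rfl

end Ker

section Trace

variable {k G : Type u} [CommRing k] [Group G] (N : Subgroup G) [N.Normal]
  (χb : G ⧸ N →* kˣ)

/-- the trace `k[G/N] → k`, `[gN] ↦ χ̄ (gN)` -/
noncomputable def trPerm : (Rep.ofMulAction k G (G ⧸ N)) →ₗ[k] k :=
  (Finsupp.linearCombination k (fun δ : G ⧸ N => ((χb δ : kˣ) : k))) ∘ₗ
    (MonoidAlgebra.coeffLinearEquiv k).toLinearMap

lemma trPerm_single (δ : G ⧸ N) (c : k) :
    trPerm N χb (MonoidAlgebra.single δ c : MonoidAlgebra k (G ⧸ N)) = c * ((χb δ : kˣ) : k) := by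
  simp [trPerm, MonoidAlgebra.coeff_single, Finsupp.linearCombination_single]

/-- the trace is equivariant to the twist of the trivial module by `χ = χ̄ ∘ mk` -/
lemma isEquivariant_trPerm (χ : G →* kˣ) (hχ : ∀ g : G, χb (QuotientGroup.mk g) = χ g) :
    LevelStr.IsEquivariant (A := Rep.ofMulAction k G (G ⧸ N))
      (B := (Rep.trivial k G k).twist χ) (trPerm N χb) := by
  intro g a
  show trPerm N χb ((Representation.ofMulAction k G (G ⧸ N) g) a) =
    ((χ g : kˣ) : k) • trPerm N χb a
  induction a using MonoidAlgebra.induction_linear with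
  | zero => simp
  | add x y hx hy => rw [map_add, map_add, hx, hy, map_add, smul_add]
  | single δ c =>
    rw [Representation.ofMulAction_single, trPerm_single, trPerm_single]
    induction δ using QuotientGroup.induction_on with
    | H x =>
      have e : g • (QuotientGroup.mk x : G ⧸ N) = QuotientGroup.mk (g * x) := rfl
      rw [e, QuotientGroup.mk_mul, map_mul, hχ g, Units.val_mul, smul_eq_mul]
      ring

end Trace

section Surj

variable {k G H : Type u} [Field k] [Group G] [Group H] (N : Subgroup G) [N.Normal]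
  [Finite (G ⧸ N)] (χb : G ⧸ N →* kˣ) (χ : G →* kˣ) (r : H →* G)
  (τ : OrbSect ((QuotientGroup.mk' N).comp r))

/-- **the trace restricted to an orbit summand is surjective** -/
theorem orbTr_trPerm_surjective (ρ : τ.R) :
    Function.Surjective
      (orbTr (M := (Rep.trivial k G k).twist χ) (ShaTransport84.permCoord k N) (trPerm N χb) τ ρ) := by
  classical
  -- the basis vector at `ρ⁻¹` lies in the orbit summand and has invertible trace
  let a₀ : Rep.ofMulAction k G (G ⧸ N) :=
    (MonoidAlgebra.single ((ρ : G ⧸ N)⁻¹) 1 : MonoidAlgebra k (G ⧸ N))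
  have hmem : a₀ ∈ orbSub (ShaTransport84.permCoord k N) τ ρ := by
    intro δ hδ
    rw [ShaTransport84.permCoord_c_apply]
    show (MonoidAlgebra.single ((ρ : G ⧸ N)⁻¹) (1 : k) : MonoidAlgebra k (G ⧸ N)).coeff δ⁻¹ = 0
    rw [MonoidAlgebra.coeff_single, Finsupp.single_apply, if_neg]
    intro h
    apply hδ
    rw [inv_inj] at h
    rw [← h, ρ.2]
  have htr0 : trPerm N χb a₀ = ((χb (ρ : G ⧸ N)⁻¹ : kˣ) : k) := by
    show trPerm N χb (MonoidAlgebra.single ((ρ : G ⧸ N)⁻¹) 1 : MonoidAlgebra k (G ⧸ N)) = _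
    rw [trPerm_single, one_mul]
  intro m
  refine ⟨(((χb (ρ : G ⧸ N)⁻¹)⁻¹ : kˣ) : k) • (m : k) • (⟨a₀, hmem⟩ : orbSub _ τ ρ), ?_⟩
  show trPerm N χb ((((χb (ρ : G ⧸ N)⁻¹)⁻¹ : kˣ) : k) • (m : k) • a₀) = m
  rw [map_smul, map_smul, htr0, smul_eq_mul, smul_eq_mul, mul_comm (m : k), ← mul_assoc,
    Units.inv_mul, one_mul]

end Surj

end Fermat.Agent.S55.HrecTrace84
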