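/-
S55 / 47i-HREC-TRACE (helper84), file 3: the instance over `ℚ`.

For a level `U ∈ (globalLevels S).levels` on which `μ_p` is trivial, and ANY family of conjugators
`t q j` (`q ∈ S`) representing every orbit of `G_ℚ/U` under the decomposition group at `q` exactly
once (`IsOrbitReps`; e.g. the canonical family `ShaTransport84.canonT`), the literal plugs

  `Profin15.Plug.ReciprocityL p S`   (P3P4)   and   `∀ q ∈ S, Profin15.Plug.LocalRightExactL p q`   (P2)

give functionals `Λ w` on `H²(G_{L_w}; 𝔽_p)` (`w = ⟨q, j⟩`), ALL NONZERO, with the reciprocity law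
at the level `U`:  `∑ w, Λ w (res_w z) = 0` for `z ∈ H²(G_{L,S}; 𝔽_p)`
— the field `hrec` of `CountWire23.LevelInputs / CanonInputs` (helper23) and the input `(R)` of
`CountWire96.finrank_sha2_le_finrank_sha1` (helper96).
-/
import Fermat.Agent.S55.HrecTrace84.Trace
import Fermat.Agent.S55.Profin15.Contract
import Fermat.Agent.S55.CountWire23.Canon

set_option autoImplicit false

open CategoryTheory Module groupCohomology ExtCitation

namespace Fermat.Agent.S55.HrecTrace84

open Fermat.Agent.S55.Profin15 Fermat.Agent.S55.ShapiroLevel32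
open Fermat.Agent.Lib.FrobeniusExists (Qb GQ)
open Fermat.Agent.S55.Contract34
open Fermat.Agent.S55.ShaTransport84 (rS hrS hker_mk' conjLevels conjMap conjMap_isContinuous
  canonT CanonJ)

variable {p : ℕ} [Fact p.Prime] {S : Finset Nat.Primes} {U : Subgroup GQ} [U.Normal]

/-! ### The trace `𝔽_p[G_ℚ/U] → μ_p` -/

omit [U.Normal] in
lemma cycloChar_eq_one_of_hmu (hmu : ∀ s ∈ U, (mu p).ρ s = 1) {s : GQ} (hs : s ∈ U) :
    cycloChar p s = 1 := by
  have h := hmu s hs
  have h1 : (mu p).ρ s (1 : ZMod p) = (1 : ZMod p) := by rw [h]; rfl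
  have h2 : (mu p).ρ s (1 : ZMod p) = ((cycloChar p s : (ZMod p)ˣ) : ZMod p) • (1 : ZMod p) := rfl
  rw [h2, smul_eq_mul, mul_one] at h1
  exact Units.ext h1

/-- the cyclotomic character on `G_ℚ/U` -/
noncomputable def chiBar (hmu : ∀ s ∈ U, (mu p).ρ s = 1) : GQ ⧸ U →* (ZMod p)ˣ :=
  QuotientGroup.lift U (cycloChar p) fun _ hs => cycloChar_eq_one_of_hmu hmu hs

lemma chiBar_mk (hmu : ∀ s ∈ U, (mu p).ρ s = 1) (g : GQ) :
    chiBar hmu (QuotientGroup.mk g) = cycloChar p g := rfl

/-- the trace `𝔽_p[G_ℚ/U] → μ_p`, `[gU] ↦ χ_cyc(g)` -/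
noncomputable def trU (hmu : ∀ s ∈ U, (mu p).ρ s = 1) : perm p U →ₗ[ZMod p] mu p :=
  trPerm U (chiBar hmu)

lemma isEquivariant_trU (hmu : ∀ s ∈ U, (mu p).ρ s = 1) :
    LevelStr.IsEquivariant (A := perm p U) (B := mu p) (trU hmu) :=
  isEquivariant_trPerm U (chiBar hmu) (cycloChar p) (chiBar_mk hmu)

/-! ### Local right exactness gives the surjectivity on the orbit summands -/

section Surj

variable [Finite (GQ ⧸ U)] (hU : U ∈ (globalLevels S).levels) (hmu : ∀ s ∈ U, (mu p).ρ s = 1)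
  (q : ↥S) (τ : OrbSect ((QuotientGroup.mk' U).comp (rS S q))) (ρ : τ.R)

include hU in
lemma isLocRep_orbRep :
    IsLocRep p q.1 (orbRep (ShaTransport84.permCoord (ZMod p) U) τ ρ) := by
  obtain ⟨-, F, hF, hUF⟩ := mem_globalLevels_iff.1 hU
  refine ⟨F, hF.1, fun h hh => ?_⟩
  have hhU : primeLocalToGlobal q.1 h ∈ U := hUF ▸ hh
  have hπ : QuotientGroup.mk' U (rS S q h) = 1 := (QuotientGroup.eq_one_iff _).2 hhU
  apply LinearMap.ext
  intro a
  let a' : ↥(orbSub (ShaTransport84.permCoord (ZMod p) U) τ ρ) := a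
  apply Subtype.ext
  show (perm p U).ρ (rS S q h) (a'.1 : perm p U) = (a'.1 : perm p U)
  rw [ρ_eq_one_of_ker (ShaTransport84.permCoord (ZMod p) U) hπ]
  rfl

omit [U.Normal] [Finite (GQ ⧸ U)] in
include hU hmu in
lemma isLocRep_res_mu : IsLocRep p q.1 (Rep.res (primeLocalToGlobal q.1) (mu p)) := by
  obtain ⟨-, F, hF, hUF⟩ := mem_globalLevels_iff.1 hU
  refine ⟨F, hF.1, fun h hh => ?_⟩
  have hhU : primeLocalToGlobal q.1 h ∈ U := hUF ▸ hh
  exact hmu _ hhU

include hU in
/-- **(P2) ⇒ surjectivity of `H²` on `orbRep ρ → res μ_p`** -/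
theorem hsurj_of_localRightExact (hlre : Plug.LocalRightExactL p q.1) :
    Function.Surjective ((primeLevels q.1).H2map
      (orbTr (ShaTransport84.permCoord (ZMod p) U) (trU hmu) τ ρ)
      (isEquivariant_orbTr (ShaTransport84.permCoord (ZMod p) U) (trU hmu)
        (isEquivariant_trU hmu) τ ρ)) := by
  have hfinPerm : Module.Finite (ZMod p) (perm p U) :=
    Module.Finite.equiv (ShaTransport84.permCoord (ZMod p) U).c.symm
  have hfinM : FiniteDimensional (ZMod p) (orbRep (ShaTransport84.permCoord (ZMod p) U) τ ρ) :=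
    inferInstanceAs (FiniteDimensional (ZMod p)
      ↥(orbSub (ShaTransport84.permCoord (ZMod p) U) τ ρ))
  have hfinN : FiniteDimensional (ZMod p) (Rep.res (primeLocalToGlobal q.1) (mu p)) :=
    inferInstanceAs (FiniteDimensional (ZMod p) (ZMod p))
  let g : orbRep (ShaTransport84.permCoord (ZMod p) U) τ ρ ⟶
      Rep.res (primeLocalToGlobal q.1) (mu p) :=
    Rep.ofHom (ρ := (orbRep (ShaTransport84.permCoord (ZMod p) U) τ ρ).ρ)
      (σ := (Rep.res (primeLocalToGlobal q.1) (mu p)).ρ)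
      (LinearMap.intertwiningMap_of_isIntertwiningMap _ _
        (orbTr (ShaTransport84.permCoord (ZMod p) U) (trU hmu) τ ρ)
        (isEquivariant_orbTr (ShaTransport84.permCoord (ZMod p) U) (trU hmu)
          (isEquivariant_trU hmu) τ ρ))
  have hg : Function.Surjective g.hom :=
    orbTr_trPerm_surjective U (chiBar hmu) (cycloChar p) (rS S q) τ ρ
  exact hlre _ _ (isLocRep_orbRep hU q τ ρ) (isLocRep_res_mu hU hmu q) g hg

end Surj

/-! ### The theorem -/

/-- the canonical family represents every orbit exactly once -/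
lemma isOrbitReps_canonT {G Γ : Type} [Group G] [Group Γ] {I : Type*} {Hl : I → Type}
    [∀ v, Group (Hl v)] {π : G →* Γ} (hπ : Function.Surjective π) (r : ∀ v, Hl v →* G) (v : I) :
    IsOrbitReps π (r v) (canonT hπ r v) := by
  have : (fun j : CanonJ π r v =>
      (QuotientGroup.mk (π (canonT hπ r v j)) : Γ ⧸ (π.comp (r v)).range)) = id := by
    funext j
    show (QuotientGroup.mk (π (Function.surjInv hπ (Quotient.out j))) :
      Γ ⧸ (π.comp (r v)).range) = j
    rw [Function.surjInv_eq hπ]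
    exact QuotientGroup.out_eq' j
  rw [IsOrbitReps, this]
  exact Function.bijective_id

/-- **`hrec` at the level `U` and `Λ_w ≠ 0` from the literal plugs (P3P4) + (P2)**, for any family
of conjugators representing every orbit exactly once. -/
theorem exists_Lam (hU : U ∈ (globalLevels S).levels) (hmu : ∀ s ∈ U, (mu p).ρ s = 1)
    (hrecip : Plug.ReciprocityL p S) (hlre : ∀ q ∈ S, Plug.LocalRightExactL p q)
    {J : ↥S → Type} [∀ q, Fintype (J q)] {t : ∀ q : ↥S, J q → GQ}
    (hbij : ∀ q : ↥S, IsOrbitReps (QuotientGroup.mk' U) (rS S q) (t q)) :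
    ∃ Λ : ∀ w : Σ q : ↥S, J q,
        (conjLevels (J := J) (hrS S) (hker_mk' hU) w).H2
          (Rep.res (conjMap (QuotientGroup.mk' U) (rS S) t w)
            (triv (ZMod p) (QuotientGroup.mk' U).ker)) →ₗ[ZMod p] ZMod p,
      (∀ w, Λ w ≠ 0) ∧
      ∀ z : (kerLevels (globalLevels S) (hker_mk' hU)).H2
          (triv (ZMod p) (QuotientGroup.mk' U).ker),
        ∑ w : Σ q : ↥S, J q, Λ w
          ((conjMap_isContinuous (hrS S) (hker_mk' hU) t w).res₂
            (triv (ZMod p) (QuotientGroup.mk' U).ker) z) = 0 := by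
  classical
  obtain ⟨lam, hne, hsum⟩ := hrecip
  obtain ⟨σ⟩ := exists_sect (QuotientGroup.mk'_surjective U)
  have hfi : U.FiniteIndex := (globalLevels S).finiteIndex U hU
  have hfin : Finite (GQ ⧸ U) := Subgroup.finite_quotient_of_finiteIndex
  refine ⟨LamW (hker_mk' hU) (hrS S) (ShaTransport84.permCoord (ZMod p) U) (trU hmu)
    (isEquivariant_trU hmu) hbij lam, fun w => ?_, fun z => ?_⟩
  · exact LamW_ne_zero (hker_mk' hU) (hrS S) (ShaTransport84.permCoord (ZMod p) U) (trU hmu)
      (isEquivariant_trU hmu) hbij lam w (hne w.1)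
      (hsurj_of_localRightExact hU hmu w.1 _ _ (hlre w.1.1 w.1.2))
  · exact hrec_of_base (hker_mk' hU) (hrS S) (ShaTransport84.permCoord (ZMod p) U) (trU hmu)
      (isEquivariant_trU hmu) σ hbij lam hsum z

open Fermat.Agent.S55.CountWire23 in
/-- **the fields `hrec` (+ `Λ_w ≠ 0`) of `CountWire23.CanonInputs`** from the literal plugs
(P3P4) + (P2), in helper23's vocabulary (canonical family, any `Fintype` structure). -/
theorem exists_Lam_canon (hU : U ∈ (globalLevels S).levels) (hmu : ∀ s ∈ U, (mu p).ρ s = 1)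
    (hrecip : Plug.ReciprocityL p S) (hlre : ∀ q ∈ S, Plug.LocalRightExactL p q)
    [inst : Fintype (Σ q : ↥S, canonJ S U q)] :
    ∃ Λ : ∀ w : Σ q : ↥S, canonJ S U q,
        (locLevels S U hU w).H2 (kLoc p S U w) →ₗ[ZMod p] ZMod p,
      (∀ w, Λ w ≠ 0) ∧
      ∀ z : (levU S U hU).H2 (kU p U),
        ∑ w : Σ q : ↥S, canonJ S U q, Λ w (locRes₂ p S U hU (canonT' S U) w z) = 0 := by
  classical
  have hfi : U.FiniteIndex := (globalLevels S).finiteIndex U hU
  have hfin : Finite (GQ ⧸ U) := Subgroup.finite_quotient_of_finiteIndex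
  letI : ∀ q : ↥S, Fintype (canonJ S U q) := fun q => Fintype.ofFinite _
  obtain ⟨Λ, hne, hrec⟩ := exists_Lam (J := fun q => canonJ S U q) (t := canonT' S U) hU hmu
    hrecip hlre (fun q => isOrbitReps_canonT (QuotientGroup.mk'_surjective U) (rS S) q)
  refine ⟨Λ, hne, fun z => ?_⟩
  rw [← hrec z]
  exact Finset.sum_congr (Finset.ext fun _ => by simp) fun _ _ => rfl

end Fermat.Agent.S55.HrecTrace84
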